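import Mathlib

/-!
# A regular sequence generating the maximal ideal of `𝒪⟦X₁,…,X_r⟧`

For a discrete valuation ring `𝒪` with uniformizer `ϖ`, the list `X₀, …, X_{r-1}, C ϖ` is a
regular sequence on `MvPowerSeries (Fin r) 𝒪` generating the maximal ideal. Consequently the
residue field has projective dimension `r + 1`.
-/

set_option autoImplicit false

namespace Fermat.Agent.S57.RegSeq

open MvPowerSeries RingTheory.Sequence

section Low

variable {𝒪 : Type} [CommRing 𝒪] {r : ℕ}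

/-- Power series all of whose coefficients at monomials not involving `X_i` (`i < j`) vanish. -/
def lowIdeal (𝒪 : Type) [CommRing 𝒪] (r j : ℕ) : Ideal (MvPowerSeries (Fin r) 𝒪) where
  carrier := {f | ∀ m : Fin r →₀ ℕ, (∀ i : Fin r, (i : ℕ) < j → m i = 0) → coeff m f = 0}
  add_mem' := by
    intro f g hf hg m hm
    rw [map_add, hf m hm, hg m hm, add_zero]
  zero_mem' := by
    intro m _
    exact map_zero _
  smul_mem' := by
    classical
    intro c f hf m hm
    rw [smul_eq_mul, coeff_mul]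
    refine Finset.sum_eq_zero ?_
    intro p hp
    have hp' : p.1 + p.2 = m := by simpa using hp
    have h2 : ∀ i : Fin r, (i : ℕ) < j → p.2 i = 0 := by
      intro i hi
      have := hm i hi
      rw [← hp'] at this
      simp only [Finsupp.coe_add, Pi.add_apply, Nat.add_eq_zero_iff] at this
      exact this.2
    rw [hf p.2 h2, mul_zero]

theorem mem_lowIdeal {j : ℕ} {f : MvPowerSeries (Fin r) 𝒪} :
    f ∈ lowIdeal 𝒪 r j ↔
      ∀ m : Fin r →₀ ℕ, (∀ i : Fin r, (i : ℕ) < j → m i = 0) → coeff m f = 0 :=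
  Iff.rfl

theorem X_mem_lowIdeal {j : ℕ} (i : Fin r) (hi : (i : ℕ) < j) :
    (X i : MvPowerSeries (Fin r) 𝒪) ∈ lowIdeal 𝒪 r j := by
  classical
  intro m hm
  rw [coeff_X, if_neg]
  intro h
  have := hm i hi
  rw [h] at this
  simp at this

theorem coeff_X_mul_add (i : Fin r) (m : Fin r →₀ ℕ) (f : MvPowerSeries (Fin r) 𝒪) :
    coeff (m + Finsupp.single i 1) (X i * f) = coeff m f := by
  rw [add_comm, X_def, coeff_add_monomial_mul, one_mul]

theorem lowIdeal_mono {j k : ℕ} (h : j ≤ k) : lowIdeal 𝒪 r j ≤ lowIdeal 𝒪 r k := by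
  intro f hf m hm
  exact hf m fun i hi => hm i (lt_of_lt_of_le hi h)

/-- `X_i` is regular modulo `lowIdeal i`. -/
theorem mem_lowIdeal_of_X_mul_mem (i : Fin r) {f : MvPowerSeries (Fin r) 𝒪}
    (h : X i * f ∈ lowIdeal 𝒪 r i) : f ∈ lowIdeal 𝒪 r i := by
  intro m hm
  rw [← coeff_X_mul_add i m f]
  apply h
  intro k hk
  have hne : i ≠ k := by
    intro hik
    rw [hik] at hk
    exact lt_irrefl _ hk
  simp [hm k hk, hne]

/-- Decomposition step: `lowIdeal (j+1) ≤ lowIdeal j ⊔ span {X_j}`. -/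
theorem lowIdeal_succ_le (j : ℕ) (hj : j < r) :
    lowIdeal 𝒪 r (j + 1) ≤ lowIdeal 𝒪 r j ⊔ Ideal.span {(X ⟨j, hj⟩ : MvPowerSeries (Fin r) 𝒪)} := by
  classical
  intro f hf
  set J : Fin r := ⟨j, hj⟩ with hJ
  -- g := "f divided by X_J"
  let g : MvPowerSeries (Fin r) 𝒪 := fun m => coeff (m + Finsupp.single J 1) f
  have hg : ∀ m, coeff m (X J * g) = if 1 ≤ m J then coeff m f else 0 := by
    intro m
    rw [X_def, coeff_monomial_mul, one_mul]
    have hle : Finsupp.single J 1 ≤ m ↔ 1 ≤ m J := by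
      rw [Finsupp.single_le_iff]
    by_cases h1 : 1 ≤ m J
    · rw [if_pos (hle.mpr h1), if_pos h1]
      show coeff (m - Finsupp.single J 1 + Finsupp.single J 1) f = coeff m f
      rw [tsub_add_cancel_of_le (hle.mpr h1)]
    · rw [if_neg (fun h => h1 (hle.mp h)), if_neg h1]
  have hf1 : f - X J * g ∈ lowIdeal 𝒪 r j := by
    intro m hm
    rw [map_sub, hg m]
    by_cases h1 : 1 ≤ m J
    · rw [if_pos h1, sub_self]
    · rw [if_neg h1, sub_zero]
      apply hf m
      intro i hi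
      rcases Nat.lt_succ_iff_lt_or_eq.mp hi with h | h
      · exact hm i h
      · have : i = J := Fin.ext h
        rw [this]
        omega
  have : f = (f - X J * g) + X J * g := by ring
  rw [this]
  refine Submodule.add_mem_sup hf1 ?_
  exact Ideal.mul_mem_right _ _ (Ideal.subset_span rfl)

/-- `lowIdeal j` is generated by the `X_i` with `i < j`. -/
theorem lowIdeal_eq_span (j : ℕ) (hj : j ≤ r) :
    lowIdeal 𝒪 r j =
      Ideal.span {x : MvPowerSeries (Fin r) 𝒪 | ∃ i : Fin r, (i : ℕ) < j ∧ X i = x} := by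
  apply le_antisymm
  · induction j with
    | zero =>
      intro f hf
      have : f = 0 := by
        ext m
        rw [map_zero]
        exact hf m (fun i hi => absurd hi (Nat.not_lt_zero _))
      rw [this]
      exact Submodule.zero_mem _
    | succ j ih =>
      refine (lowIdeal_succ_le j hj).trans (sup_le ?_ ?_)
      · refine (ih (Nat.le_of_succ_le hj)).trans (Ideal.span_mono ?_)
        rintro x ⟨i, hi, rfl⟩
        exact ⟨i, Nat.lt_succ_of_lt hi, rfl⟩
      · rw [Ideal.span_le]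
        rintro x hx
        rw [Set.mem_singleton_iff] at hx
        exact Ideal.subset_span ⟨⟨j, hj⟩, Nat.lt_succ_self j, hx.symm⟩
  · rw [Ideal.span_le]
    rintro x ⟨i, hi, rfl⟩
    exact X_mem_lowIdeal i hi

theorem mem_lowIdeal_top_iff {f : MvPowerSeries (Fin r) 𝒪} :
    f ∈ lowIdeal 𝒪 r r ↔ constantCoeff f = 0 := by
  constructor
  · intro h
    exact h 0 (fun _ _ => rfl)
  · intro h m hm
    have : m = 0 := by
      ext i
      exact hm i i.2
    rw [this]
    exact h

end Low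

section Main

variable {𝒪 : Type} [CommRing 𝒪] (r : ℕ)

/-- The list `X₀, …, X_{r-1}, C ϖ`. -/
noncomputable def rsList (ϖ : 𝒪) : List (MvPowerSeries (Fin r) 𝒪) :=
  (List.ofFn fun i : Fin r => (X i : MvPowerSeries (Fin r) 𝒪)) ++ [C ϖ]

theorem length_rsList (ϖ : 𝒪) : (rsList r ϖ).length = r + 1 := by
  simp [rsList]

theorem ofList_take_rsList (ϖ : 𝒪) (j : ℕ) (hj : j ≤ r) :
    Ideal.ofList ((rsList r ϖ).take j) = lowIdeal 𝒪 r j := by
  rw [lowIdeal_eq_span j hj, Ideal.ofList]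
  congr 1
  ext x
  simp only [Set.mem_ofPred_eq]
  rw [rsList, List.take_append_of_le_length (by simpa using hj)]
  rw [List.mem_take_iff_getElem]
  constructor
  · rintro ⟨k, hk, rfl⟩
    simp only [List.length_ofFn, lt_inf_iff] at hk
    refine ⟨⟨k, hk.2⟩, hk.1, ?_⟩
    simp
  · rintro ⟨i, hi, rfl⟩
    refine ⟨i, ?_, ?_⟩
    · simp only [List.length_ofFn, lt_inf_iff]
      exact ⟨hi, i.2⟩
    · simp

theorem ofList_rsList (ϖ : 𝒪) :
    Ideal.ofList (rsList r ϖ) = lowIdeal 𝒪 r r ⊔ Ideal.span {(C ϖ : MvPowerSeries (Fin r) 𝒪)} := by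
  have h := ofList_take_rsList (𝒪 := 𝒪) r ϖ r le_rfl
  rw [rsList, List.take_append_of_le_length (by simp), List.take_of_length_le (by simp)] at h
  rw [rsList, Ideal.ofList_append, h, Ideal.ofList_singleton]

variable [IsDomain 𝒪] [IsDiscreteValuationRing 𝒪]

theorem ofList_rsList_eq_maximalIdeal {ϖ : 𝒪} (hϖ : Irreducible ϖ) :
    Ideal.ofList (rsList r ϖ) = IsLocalRing.maximalIdeal (MvPowerSeries (Fin r) 𝒪) := by
  rw [ofList_rsList]
  apply le_antisymm
  · refine sup_le ?_ ?_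
    · intro f hf
      rw [IsLocalRing.mem_maximalIdeal, mem_nonunits_iff, MvPowerSeries.isUnit_iff_constantCoeff,
        mem_lowIdeal_top_iff.mp hf]
      exact not_isUnit_zero
    · rw [Ideal.span_le]
      intro f hf
      rw [Set.mem_singleton_iff] at hf
      rw [hf]
      show C ϖ ∈ IsLocalRing.maximalIdeal _
      rw [IsLocalRing.mem_maximalIdeal, mem_nonunits_iff, MvPowerSeries.isUnit_iff_constantCoeff,
        constantCoeff_C]
      exact hϖ.not_isUnit
  · intro f hf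
    rw [IsLocalRing.mem_maximalIdeal, mem_nonunits_iff, MvPowerSeries.isUnit_iff_constantCoeff] at hf
    have h1 : constantCoeff f ∈ IsLocalRing.maximalIdeal 𝒪 := hf
    rw [hϖ.maximalIdeal_eq, Ideal.mem_span_singleton'] at h1
    obtain ⟨c, hc⟩ := h1
    have h2 : f - C (c * ϖ) ∈ lowIdeal 𝒪 r r := by
      rw [mem_lowIdeal_top_iff, map_sub, constantCoeff_C, hc, sub_self]
    have : f = (f - C (c * ϖ)) + C c * C ϖ := by
      rw [← map_mul]; ring
    rw [this]
    exact Submodule.add_mem_sup h2 (Ideal.mul_mem_left _ _ (Ideal.subset_span rfl))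

theorem isSMulRegular_quot_iff {R : Type} [CommRing R] (I : Ideal R) (x : R) :
    IsSMulRegular (R ⧸ (I • (⊤ : Submodule R R))) x ↔ ∀ f : R, x * f ∈ I → f ∈ I := by
  have hI : (I • (⊤ : Submodule R R)) = I := by
    rw [smul_eq_mul, Ideal.mul_top]
  constructor
  · intro h f hf
    have h0 : x • (Submodule.Quotient.mk f : R ⧸ (I • (⊤ : Submodule R R))) = x • 0 := by
      rw [smul_zero, ← Submodule.Quotient.mk_smul, Submodule.Quotient.mk_eq_zero, hI, smul_eq_mul]
      exact hf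
    have := h h0
    rw [Submodule.Quotient.mk_eq_zero, hI] at this
    exact this
  · intro h a b hab
    induction a using Submodule.Quotient.induction_on with
    | _ a =>
    induction b using Submodule.Quotient.induction_on with
    | _ b =>
    simp only at hab
    rw [← Submodule.Quotient.mk_smul, ← Submodule.Quotient.mk_smul, Submodule.Quotient.eq, hI,
      smul_eq_mul, smul_eq_mul, ← mul_sub] at hab
    rw [Submodule.Quotient.eq, hI]
    exact h _ hab

omit [IsDiscreteValuationRing 𝒪] in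
theorem isWeaklyRegular_rsList {ϖ : 𝒪} (hϖ : ϖ ≠ 0) :
    IsWeaklyRegular (MvPowerSeries (Fin r) 𝒪) (rsList r ϖ) := by
  refine ⟨fun i hi => ?_⟩
  rw [length_rsList] at hi
  rw [isSMulRegular_quot_iff, ofList_take_rsList r ϖ i (Nat.lt_succ_iff.mp hi)]
  rcases Nat.lt_succ_iff_lt_or_eq.mp hi with h | h
  · have hget : (rsList r ϖ)[i]'(by rw [length_rsList]; exact hi) =
        (X ⟨i, h⟩ : MvPowerSeries (Fin r) 𝒪) := by
      simp [rsList, List.getElem_append_left, h]
    rw [hget]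
    intro f hf
    exact mem_lowIdeal_of_X_mul_mem ⟨i, h⟩ hf
  · subst h
    have hget : (rsList i ϖ)[i]'(by rw [length_rsList]; exact hi) =
        (C ϖ : MvPowerSeries (Fin i) 𝒪) := by
      simp [rsList]
    rw [hget]
    intro f hf m hm
    have := hf m hm
    rw [coeff_C_mul] at this
    exact (mul_eq_zero.mp this).resolve_left hϖ

theorem isRegular_rsList {ϖ : 𝒪} (hϖ : Irreducible ϖ) :
    IsRegular (MvPowerSeries (Fin r) 𝒪) (rsList r ϖ) := by
  refine ⟨isWeaklyRegular_rsList r hϖ.ne_zero, ?_⟩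
  rw [smul_eq_mul, Ideal.mul_top, ofList_rsList_eq_maximalIdeal r hϖ]
  exact (IsLocalRing.maximalIdeal.isMaximal _).ne_top.symm

open CategoryTheory in
/-- The residue field of `𝒪⟦X₁,…,X_r⟧` has projective dimension `r + 1`. -/
theorem projectiveDimension_residue :
    projectiveDimension (ModuleCat.of (MvPowerSeries (Fin r) 𝒪)
      (MvPowerSeries (Fin r) 𝒪 ⧸ IsLocalRing.maximalIdeal (MvPowerSeries (Fin r) 𝒪))) =
      ((r + 1 : ℕ) : WithBot ℕ∞) := by
  obtain ⟨ϖ, hϖ⟩ := IsDiscreteValuationRing.exists_irreducible 𝒪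
  have h := ModuleCat.projectiveDimension_quotient_eq_length.{0} (rsList r ϖ) (isRegular_rsList r hϖ)
  rw [length_rsList] at h
  rw [← h]
  have e1 : (MvPowerSeries (Fin r) 𝒪 ⧸ IsLocalRing.maximalIdeal (MvPowerSeries (Fin r) 𝒪))
      ≃ₗ[MvPowerSeries (Fin r) 𝒪] (MvPowerSeries (Fin r) 𝒪 ⧸ Ideal.ofList (rsList r ϖ)) :=
    Submodule.quotEquivOfEq _ _ (ofList_rsList_eq_maximalIdeal r hϖ).symm
  have e2 : (MvPowerSeries (Fin r) 𝒪 ⧸ Ideal.ofList (rsList r ϖ))
      ≃ₗ[MvPowerSeries (Fin r) 𝒪] Shrink.{0} (MvPowerSeries (Fin r) 𝒪 ⧸ Ideal.ofList (rsList r ϖ)) :=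
    (Shrink.linearEquiv (MvPowerSeries (Fin r) 𝒪) _).symm
  exact projectiveDimension_eq_of_iso (LinearEquiv.toModuleIso (e1.trans e2))

open CategoryTheory in
theorem hasProjectiveDimensionLT_residue :
    HasProjectiveDimensionLT (ModuleCat.of (MvPowerSeries (Fin r) 𝒪)
      (MvPowerSeries (Fin r) 𝒪 ⧸ IsLocalRing.maximalIdeal (MvPowerSeries (Fin r) 𝒪))) (r + 2) := by
  have h := projectiveDimension_residue (𝒪 := 𝒪) r
  have h2 : projectiveDimension (ModuleCat.of (MvPowerSeries (Fin r) 𝒪)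
      (MvPowerSeries (Fin r) 𝒪 ⧸ IsLocalRing.maximalIdeal (MvPowerSeries (Fin r) 𝒪))) <
      ((r + 2 : ℕ) : WithBot ℕ∞) := by
    rw [h]
    exact_mod_cast Nat.lt_succ_self (r + 1)
  exact (projectiveDimension_lt_iff).mp h2

open CategoryTheory in
theorem hasProjectiveDimensionLE_residue :
    HasProjectiveDimensionLE (ModuleCat.of (MvPowerSeries (Fin r) 𝒪)
      (MvPowerSeries (Fin r) 𝒪 ⧸ IsLocalRing.maximalIdeal (MvPowerSeries (Fin r) 𝒪))) (r + 1) :=
  hasProjectiveDimensionLT_residue r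

/-- Alias of `rsList` under the name requested by the S57 team. -/
noncomputable abbrev xs (ϖ : 𝒪) : List (MvPowerSeries (Fin r) 𝒪) := rsList r ϖ

omit [IsDiscreteValuationRing 𝒪] in
theorem isWeaklyRegular_xs {ϖ : 𝒪} (hϖ : ϖ ≠ 0) :
    IsWeaklyRegular (MvPowerSeries (Fin r) 𝒪) (xs r ϖ) :=
  isWeaklyRegular_rsList r hϖ

theorem ofList_xs {ϖ : 𝒪} (hϖ : Irreducible ϖ) :
    Ideal.ofList (xs r ϖ) = IsLocalRing.maximalIdeal (MvPowerSeries (Fin r) 𝒪) :=
  ofList_rsList_eq_maximalIdeal r hϖ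

omit [IsDomain 𝒪] [IsDiscreteValuationRing 𝒪] in
theorem xs_eq (ϖ : 𝒪) : xs r ϖ =
    (List.ofFn fun i : Fin r => (X i : MvPowerSeries (Fin r) 𝒪)) ++ [C ϖ] := rfl

end Main

end Fermat.Agent.S57.RegSeq
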