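import Fermat.Prelude.Def_Algebra_PatchingDatum
import Fermat.Agent.S57.RegSeqPowerSeries
import Mathlib

/-!
# S57, piece (C): coordinates on `L.N`

For a patching level `L` with trivial relation ideal, the map
`c ↦ ∑ i, φ (c i) • b i` is an additive bijection `(Fin d → Λ) ≃+ L.N` which intertwines
multiplication by `f` with multiplication by `φ f`.  Consequently a weakly regular sequence on
`Λ` is mapped by `φ` to a weakly regular sequence on `L.N`, and the quotient of `L.N` by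
`φ(X₀), …, φ(X_{r-1}), ϖ` has finite length.
-/

set_option autoImplicit false
set_option linter.unusedSectionVars false

namespace Fermat.Agent.S57.Coord

open MvPowerSeries RingTheory.Sequence IsLocalRing

variable {𝒪 : Type} [CommRing 𝒪] {r : ℕ} {R : Type} [CommRing R] [Algebra 𝒪 R]
  {M : Type} [AddCommGroup M] [Module R M]
  (L : Algebra.PatchingLevel 𝒪 r R M ⊥)

/-- The coordinate map `c ↦ ∑ φ(c i) • b i` as an additive hom. -/
noncomputable def coordHom : (Fin L.d → MvPowerSeries (Fin r) 𝒪) →+ L.N where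
  toFun c := ∑ i, L.φ (c i) • L.b i
  map_zero' := by simp
  map_add' c c' := by simp [add_smul, Finset.sum_add_distrib]

theorem coordHom_apply (c : Fin L.d → MvPowerSeries (Fin r) 𝒪) :
    coordHom L c = ∑ i, L.φ (c i) • L.b i := rfl

theorem coordHom_bijective : Function.Bijective (coordHom L) := by
  constructor
  · rw [injective_iff_map_eq_zero]
    intro c hc
    have h := (L.b_rel c).mp hc
    funext i
    simpa using h i
  · intro x
    obtain ⟨c, hc⟩ := L.b_span x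
    exact ⟨c, hc.symm⟩

/-- The coordinate additive equivalence. -/
noncomputable def coordEquiv : (Fin L.d → MvPowerSeries (Fin r) 𝒪) ≃+ L.N :=
  AddEquiv.ofBijective (coordHom L) (coordHom_bijective L)

theorem coordEquiv_apply (c : Fin L.d → MvPowerSeries (Fin r) 𝒪) :
    coordEquiv L c = ∑ i, L.φ (c i) • L.b i := rfl

theorem coordEquiv_smul (f : MvPowerSeries (Fin r) 𝒪) (c : Fin L.d → MvPowerSeries (Fin r) 𝒪) :
    coordEquiv L (f • c) = L.φ f • coordEquiv L c := by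
  simp only [coordEquiv_apply, Pi.smul_apply, smul_eq_mul, map_mul, Finset.smul_sum, mul_smul]

theorem phi_C (a : 𝒪) : L.φ (C a) = C a := by
  have := L.φ.commutes a
  simpa [MvPowerSeries.algebraMap_apply] using this

theorem isWeaklyRegular_pi {A : Type} [CommRing A] (d : ℕ) {as : List A}
    (h : IsWeaklyRegular A as) : IsWeaklyRegular (Fin d → A) as := by
  have h1 := IsWeaklyRegular.isWeaklyRegular_lTensor (M₂ := Fin d → A) h
  exact ((TensorProduct.rid A (Fin d → A)).isWeaklyRegular_congr as).mp h1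

/-- `φ` maps weakly regular sequences on `Λ` to weakly regular sequences on `L.N`. -/
theorem isWeaklyRegular_map_phi {as : List (MvPowerSeries (Fin r) 𝒪)}
    (h : IsWeaklyRegular (MvPowerSeries (Fin r) 𝒪) as) :
    IsWeaklyRegular L.N (as.map L.φ) := by
  have h1 := isWeaklyRegular_pi L.d h
  refine ((coordEquiv L).isWeaklyRegular_congr ?_).mp h1
  exact List.forall₂_map_right_iff.mpr (List.forall₂_same.mpr fun f _ c => coordEquiv_smul L f c)

theorem finite_N : Module.Finite (MvPowerSeries (Fin r) 𝒪) L.N := by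
  apply Module.Finite.of_surjective (Fintype.linearCombination (MvPowerSeries (Fin r) 𝒪) L.b)
  intro x
  obtain ⟨c, rfl⟩ := L.b_span x
  refine ⟨fun i => L.φ (c i), ?_⟩
  simp [Fintype.linearCombination_apply]

theorem nontrivial_N [Nontrivial M] : Nontrivial L.N :=
  L.π_surjective.nontrivial

theorem phi_X_mem_maximalIdeal [IsLocalRing 𝒪] [Nontrivial M] (i : Fin r) :
    L.φ (X i) ∈ maximalIdeal (MvPowerSeries (Fin r) 𝒪) := by
  rw [mem_maximalIdeal, mem_nonunits_iff]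
  intro hu
  have h1 : IsUnit (L.ψ (L.φ (X i))) := hu.map L.ψ
  rw [L.ψ_φ_X i] at h1
  have : Nontrivial R := Module.nontrivial R M
  exact not_isUnit_zero h1

theorem C_mem_maximalIdeal [IsLocalRing 𝒪] {a : 𝒪} (ha : a ∈ maximalIdeal 𝒪) :
    (C a : MvPowerSeries (Fin r) 𝒪) ∈ maximalIdeal (MvPowerSeries (Fin r) 𝒪) := by
  rw [mem_maximalIdeal, mem_nonunits_iff] at ha ⊢
  intro hu
  apply ha
  have := hu.map (constantCoeff (σ := Fin r) (R := 𝒪))
  simpa using this

theorem constantCoeff_eq_zero_mem_span (f : MvPowerSeries (Fin r) 𝒪) (hf : constantCoeff f = 0) :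
    f ∈ Ideal.span (Set.range (X : Fin r → MvPowerSeries (Fin r) 𝒪)) := by
  have h1 : f ∈ RegSeq.lowIdeal 𝒪 r r := RegSeq.mem_lowIdeal_top_iff.mpr hf
  rw [RegSeq.lowIdeal_eq_span r le_rfl] at h1
  refine Ideal.span_mono ?_ h1
  rintro x ⟨i, -, rfl⟩
  exact ⟨i, rfl⟩

/-- The quotient of `L.N` by an ideal containing the `φ(X i)` and the maximal ideal of `𝒪`
is Artinian. -/
theorem isArtinian_quot [IsLocalRing 𝒪]
    (𝔟 : Ideal (MvPowerSeries (Fin r) 𝒪))
    (hX : ∀ i, L.φ (X i) ∈ 𝔟) (hC : ∀ a ∈ maximalIdeal 𝒪, (C a : MvPowerSeries (Fin r) 𝒪) ∈ 𝔟) :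
    IsArtinian (MvPowerSeries (Fin r) 𝒪)
      (L.N ⧸ (𝔟 • ⊤ : Submodule (MvPowerSeries (Fin r) 𝒪) L.N)) := by
  let _ : Module 𝒪 L.N := Module.compHom L.N (algebraMap 𝒪 (MvPowerSeries (Fin r) 𝒪))
  have hsm : ∀ (a : 𝒪) (x : L.N), a • x = (C a : MvPowerSeries (Fin r) 𝒪) • x := fun a x => rfl
  have _ : IsScalarTower 𝒪 (MvPowerSeries (Fin r) 𝒪) L.N := ⟨fun a f x => by
    rw [hsm, MvPowerSeries.smul_eq_C_mul, mul_smul]⟩
  set Q := L.N ⧸ (𝔟 • ⊤ : Submodule (MvPowerSeries (Fin r) 𝒪) L.N) with hQ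
  -- `Q` is killed by the maximal ideal of `𝒪`
  have htors : Module.IsTorsionBySet 𝒪 Q (maximalIdeal 𝒪 : Set 𝒪) := by
    intro x a
    obtain ⟨x, rfl⟩ := Submodule.Quotient.mk_surjective _ x
    rw [← Submodule.Quotient.mk_smul, Submodule.Quotient.mk_eq_zero, hsm]
    exact Submodule.smul_mem_smul (hC a a.2) Submodule.mem_top
  -- `Q` is finite over `𝒪`
  have hfin : Module.Finite 𝒪 Q := by
    apply Module.Finite.of_surjective (Fintype.linearCombination 𝒪
      (fun i => (Submodule.Quotient.mk (L.b i) : Q)))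
    intro x
    obtain ⟨x, rfl⟩ := Submodule.Quotient.mk_surjective _ x
    obtain ⟨c, rfl⟩ := L.b_span x
    refine ⟨fun i => constantCoeff (c i), ?_⟩
    rw [Fintype.linearCombination_apply, ← Submodule.mkQ_apply, map_sum]
    refine Finset.sum_congr rfl fun i _ => ?_
    rw [Submodule.mkQ_apply, ← Submodule.Quotient.mk_smul, eq_comm, Submodule.Quotient.eq, hsm,
      ← sub_smul, ← phi_C L, ← map_sub]
    refine Submodule.smul_mem_smul ?_ Submodule.mem_top
    have h1 : c i - C (constantCoeff (c i)) ∈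
        Ideal.span (Set.range (X : Fin r → MvPowerSeries (Fin r) 𝒪)) :=
      constantCoeff_eq_zero_mem_span _ (by simp)
    have h2 : Ideal.span (Set.range (X : Fin r → MvPowerSeries (Fin r) 𝒪)) ≤
        𝔟.comap L.φ.toRingHom := by
      rw [Ideal.span_le]
      rintro _ ⟨j, rfl⟩
      exact hX j
    exact h2 h1
  let _ : Module (𝒪 ⧸ maximalIdeal 𝒪) Q := htors.module
  have _ : IsScalarTower 𝒪 (𝒪 ⧸ maximalIdeal 𝒪) Q := inferInstance
  have _ : Module.Finite (𝒪 ⧸ maximalIdeal 𝒪) Q := Module.Finite.of_restrictScalars_finite 𝒪 _ Q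
  have _ : IsArtinianRing (𝒪 ⧸ maximalIdeal 𝒪) := by
    let _ := Ideal.Quotient.field (maximalIdeal 𝒪)
    infer_instance
  have _ : IsArtinian (𝒪 ⧸ maximalIdeal 𝒪) Q := inferInstance
  have _ : IsArtinian 𝒪 Q :=
    isArtinian_of_surjective_algebraMap (S := 𝒪) (R := 𝒪 ⧸ maximalIdeal 𝒪) (M := Q)
      Ideal.Quotient.mk_surjective
  exact isArtinian_of_tower 𝒪 inferInstance

/-- The quotient of `L.N` by an ideal containing the `φ(X i)` and the maximal ideal of `𝒪`
has finite length. -/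
theorem isFiniteLength_quot [IsLocalRing 𝒪] [IsNoetherianRing 𝒪]
    (𝔟 : Ideal (MvPowerSeries (Fin r) 𝒪))
    (hX : ∀ i, L.φ (X i) ∈ 𝔟) (hC : ∀ a ∈ maximalIdeal 𝒪, (C a : MvPowerSeries (Fin r) 𝒪) ∈ 𝔟) :
    IsFiniteLength (MvPowerSeries (Fin r) 𝒪)
      (L.N ⧸ (𝔟 • ⊤ : Submodule (MvPowerSeries (Fin r) 𝒪) L.N)) := by
  have := finite_N L
  have := isArtinian_quot L 𝔟 hX hC
  exact isFiniteLength_iff_isNoetherian_isArtinian.mpr ⟨inferInstance, inferInstance⟩

section DVR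

variable [IsDomain 𝒪] [IsDiscreteValuationRing 𝒪]

/-- The image under `φ` of the regular system of parameters `X₀, …, X_{r-1}, ϖ`. -/
noncomputable def ys (ϖ : 𝒪) : List (MvPowerSeries (Fin r) 𝒪) := (RegSeq.xs r ϖ).map L.φ

theorem length_ys (ϖ : 𝒪) : (ys L ϖ).length = r + 1 := by
  simp [ys, RegSeq.xs, RegSeq.length_rsList]

theorem isWeaklyRegular_ys {ϖ : 𝒪} (hϖ : ϖ ≠ 0) : IsWeaklyRegular L.N (ys L ϖ) :=
  isWeaklyRegular_map_phi L (RegSeq.isWeaklyRegular_xs r hϖ)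

theorem mem_ys_iff (ϖ : 𝒪) (f : MvPowerSeries (Fin r) 𝒪) :
    f ∈ ys L ϖ ↔ (∃ i, f = L.φ (X i)) ∨ f = C ϖ := by
  simp only [ys, RegSeq.xs, RegSeq.rsList, List.map_append, List.map_cons, List.map_nil,
    List.mem_append, List.mem_map, List.mem_ofFn, List.mem_singleton, phi_C]
  constructor
  · rintro (⟨_, ⟨i, rfl⟩, rfl⟩ | h)
    · exact Or.inl ⟨i, rfl⟩
    · exact Or.inr h
  · rintro (⟨i, rfl⟩ | h)
    · exact Or.inl ⟨_, ⟨i, rfl⟩, rfl⟩
    · exact Or.inr h

theorem mem_maximalIdeal_of_mem_ys [Nontrivial M] {ϖ : 𝒪} (hϖ : Irreducible ϖ)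
    (f : MvPowerSeries (Fin r) 𝒪) (hf : f ∈ ys L ϖ) :
    f ∈ maximalIdeal (MvPowerSeries (Fin r) 𝒪) := by
  rcases (mem_ys_iff L ϖ f).mp hf with ⟨i, rfl⟩ | rfl
  · exact phi_X_mem_maximalIdeal L i
  · apply C_mem_maximalIdeal
    rw [mem_maximalIdeal, mem_nonunits_iff]
    exact hϖ.not_isUnit

theorem isFiniteLength_quot_ys {ϖ : 𝒪} (hϖ : Irreducible ϖ) :
    IsFiniteLength (MvPowerSeries (Fin r) 𝒪)
      (L.N ⧸ (Ideal.ofList (ys L ϖ) • ⊤ : Submodule (MvPowerSeries (Fin r) 𝒪) L.N)) := by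
  apply isFiniteLength_quot
  · intro i
    exact Ideal.subset_span ((mem_ys_iff L ϖ _).mpr (Or.inl ⟨i, rfl⟩))
  · intro a ha
    rw [hϖ.maximalIdeal_eq, Ideal.mem_span_singleton] at ha
    obtain ⟨c, rfl⟩ := ha
    rw [map_mul]
    exact Ideal.mul_mem_right _ _ (Ideal.subset_span ((mem_ys_iff L ϖ _).mpr (Or.inr rfl)))

end DVR

end Fermat.Agent.S57.Coord
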