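import Mathlib
import Fermat.Prelude.Def_Algebra_PatchingDatum

set_option autoImplicit false

namespace Fermat.Agent.S57.Final

open Algebra Algebra.PatchingLevel

section
variable {𝒪 : Type} [CommRing 𝒪] {r : ℕ}

/-- Coordinates of an element of `I • ⊤` w.r.t. a basis lie in `I`. -/
theorem repr_mem_of_mem_smul_top {Λ : Type} [CommRing Λ] {N : Type} [AddCommGroup N] [Module Λ N]
    {ι : Type} (e : Module.Basis ι Λ N) (I : Ideal Λ) {x : N}
    (hx : x ∈ I • (⊤ : Submodule Λ N)) (i : ι) : e.repr x i ∈ I := by
  rw [← e.span_eq, Submodule.mem_ideal_smul_span_iff_exists_sum] at hx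
  obtain ⟨a, ha, rfl⟩ := hx
  have : e.repr (a.sum fun i c => c • e i) = a := by
    have h1 : (a.sum fun i c => c • e i) = Finsupp.linearCombination Λ e a := by
      rw [Finsupp.linearCombination_apply]
    rw [h1, e.repr_linearCombination]
  rw [this]
  exact ha i

theorem mem_smul_top_of_repr_mem {Λ : Type} [CommRing Λ] {N : Type} [AddCommGroup N] [Module Λ N]
    {ι : Type} (e : Module.Basis ι Λ N) (I : Ideal Λ) {x : N}
    (hx : ∀ i, e.repr x i ∈ I) : x ∈ I • (⊤ : Submodule Λ N) := by
  rw [← e.span_eq, Submodule.mem_ideal_smul_span_iff_exists_sum]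
  refine ⟨e.repr x, hx, ?_⟩
  have := e.linearCombination_repr x
  rwa [Finsupp.linearCombination_apply] at this

end

theorem result_of_free {𝒪 : Type} [CommRing 𝒪] {r : ℕ} {R : Type} [CommRing R] [Algebra 𝒪 R]
    {M : Type} [AddCommGroup M] [Module R M] [Nontrivial M]
    (L : Algebra.PatchingLevel 𝒪 r R M ⊥) [Module.Free (MvPowerSeries (Fin r) 𝒪) L.N] :
    Module.Free R M ∧ Module.annihilator R M = ⊥ ∧
      RingHom.ker L.ψ = Ideal.span (Set.range fun i : Fin r => L.φ (MvPowerSeries.X i)) := by
  classical
  set Λ := MvPowerSeries (Fin r) 𝒪 with hΛ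
  set 𝔞 : Ideal Λ := Ideal.span (Set.range fun i : Fin r => L.φ (MvPowerSeries.X i)) with h𝔞
  let e := Module.Free.chooseBasis Λ L.N
  set ι := Module.Free.ChooseBasisIndex Λ L.N with hι
  have h𝔞_le : 𝔞 ≤ RingHom.ker (L.ψ : Λ →+* R) := by
    rw [h𝔞, Ideal.span_le]
    rintro _ ⟨i, rfl⟩
    exact L.ψ_φ_X i
  -- additivity of π over finite sums
  have hπ_sum : ∀ (s : Finset ι) (f : ι → Λ),
      L.π (∑ i ∈ s, f i • e i) = ∑ i ∈ s, L.ψ (f i) • L.π (e i) := by
    intro s f
    rw [map_sum]
    exact Finset.sum_congr rfl fun i _ => L.π_smul _ _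
  -- key: if ∑ f i • e i maps to 0 then all f i ∈ 𝔞
  have hkey : ∀ (f : ι →₀ Λ), L.π (Finsupp.linearCombination Λ e f) = 0 → ∀ i, f i ∈ 𝔞 := by
    intro f hf i
    have hmem := (L.ker_π _).mp hf
    have := repr_mem_of_mem_smul_top e 𝔞 hmem i
    rwa [e.repr_linearCombination] at this
  have hNnontriv : Nontrivial L.N := L.π_surjective.nontrivial
  have hιne : Nonempty ι := by
    by_contra hne
    rw [not_nonempty_iff] at hne
    have : Subsingleton L.N := e.repr.toEquiv.subsingleton
    exact not_subsingleton L.N this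
  -- (3) kernel
  have hker : RingHom.ker L.ψ = 𝔞 := by
    apply le_antisymm
    · intro f hf
      obtain ⟨i⟩ := hιne
      have h0 : L.π (Finsupp.linearCombination Λ e (Finsupp.single i f)) = 0 := by
        rw [Finsupp.linearCombination_single, L.π_smul]
        have : L.ψ f = 0 := hf
        rw [this, zero_smul]
      have := hkey _ h0 i
      simpa using this
    · exact h𝔞_le
  -- the family v i = π (e i)
  set v : ι → M := fun i => L.π (e i) with hv
  have hli : LinearIndependent R v := by
    rw [linearIndependent_iff]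
    intro l hl
    -- lift coefficients
    obtain ⟨s, hs⟩ : ∃ s : R → Λ, ∀ x, L.ψ (s x) = x := ⟨Function.surjInv L.ψ_surjective,
      Function.surjInv_eq L.ψ_surjective⟩
    let f : ι →₀ Λ := Finsupp.onFinset l.support (fun i => if l i = 0 then 0 else s (l i))
      (by
        intro i hi
        by_contra h
        rw [Finsupp.mem_support_iff, not_not] at h
        simp [h] at hi)
    have hf : ∀ i, L.ψ (f i) = l i := by
      intro i
      show L.ψ (if l i = 0 then 0 else s (l i)) = l i
      split_ifs with h
      · rw [map_zero, h]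
      · exact hs _
    have hfsupp : f.support ⊆ l.support := by
      intro i hi
      rw [Finsupp.mem_support_iff] at hi ⊢
      intro h
      apply hi
      show (if l i = 0 then 0 else s (l i)) = 0
      rw [if_pos h]
    have h0 : L.π (Finsupp.linearCombination Λ e f) = 0 := by
      have h1 : Finsupp.linearCombination Λ e f = ∑ i ∈ l.support, f i • e i := by
        rw [Finsupp.linearCombination_apply]
        exact Finsupp.sum_of_support_subset f hfsupp (fun i a => a • e i)
          (fun i _ => zero_smul _ _)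
      rw [h1, hπ_sum]
      rw [Finsupp.linearCombination_apply, Finsupp.sum] at hl
      rw [← hl]
      exact Finset.sum_congr rfl fun i _ => by rw [hf i]
    ext i
    have hi := h𝔞_le (hkey f h0 i)
    have hi' : L.ψ (f i) = 0 := hi
    rw [hf i] at hi'
    simpa using hi'
  have hsp : ⊤ ≤ Submodule.span R (Set.range v) := by
    intro m _
    obtain ⟨x, rfl⟩ := L.π_surjective m
    have hx := e.linearCombination_repr x
    rw [← hx, Finsupp.linearCombination_apply, Finsupp.sum, hπ_sum]
    exact Submodule.sum_mem _ fun i _ =>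
      Submodule.smul_mem _ _ (Submodule.subset_span ⟨i, rfl⟩)
  have hfree : Module.Free R M := Module.Free.of_basis (Module.Basis.mk hli hsp)
  refine ⟨hfree, ?_, hker⟩
  have := hfree
  rw [Module.annihilator_eq_bot]
  infer_instance

end Fermat.Agent.S57.Final
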