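import Mathlib

/-!
# Piece (B1) of S57: over a local ring, a module of finite length has projective dimension
at most that of the residue field.
-/

set_option autoImplicit false

namespace Fermat.Agent.S57.FLPD

open CategoryTheory

theorem hasProjectiveDimensionLE_of_isFiniteLength {R : Type} [CommRing R] [IsLocalRing R] (n : ℕ)
    (hk : HasProjectiveDimensionLE (ModuleCat.of R (R ⧸ IsLocalRing.maximalIdeal R)) n)
    (Q : Type) [AddCommGroup Q] [Module R Q] (hQ : IsFiniteLength R Q) :
    HasProjectiveDimensionLE (ModuleCat.of R Q) n := by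
  induction hQ with
  | @of_subsingleton M _ _ _ =>
    have hz : Limits.IsZero (ModuleCat.of R M) := ModuleCat.isZero_of_subsingleton _
    have h0 : HasProjectiveDimensionLT (ModuleCat.of R M) 0 := hz.hasProjectiveDimensionLT_zero
    exact hasProjectiveDimensionLT_of_ge (ModuleCat.of R M) 0 (n + 1) (Nat.zero_le _)
  | @of_simple_quotient M _ _ N hsimple hN ih =>
    -- the quotient `M ⧸ N` is isomorphic to the residue field
    obtain ⟨I, hI, ⟨e⟩⟩ := isSimpleModule_iff_quot_maximal.mp hsimple
    have hIm : I = IsLocalRing.maximalIdeal R := IsLocalRing.eq_maximalIdeal hI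
    subst hIm
    have h3 : HasProjectiveDimensionLE (ModuleCat.of R (M ⧸ N)) n :=
      ModuleCat.hasProjectiveDimensionLE_of_linearEquiv
        (M := ModuleCat.of R (R ⧸ IsLocalRing.maximalIdeal R)) (N := ModuleCat.of R (M ⧸ N))
        e.symm n
    -- the kernel of `M → M ⧸ N` is `N`
    have h1 : HasProjectiveDimensionLE (ModuleCat.of R (LinearMap.ker N.mkQ)) n :=
      ModuleCat.hasProjectiveDimensionLE_of_linearEquiv
        (M := ModuleCat.of R N) (N := ModuleCat.of R (LinearMap.ker N.mkQ))
        (LinearEquiv.ofEq _ _ (Submodule.ker_mkQ N).symm) n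
    have hS := LinearMap.shortExact_shortComplexKer (Submodule.mkQ_surjective N)
    exact hS.hasProjectiveDimensionLT_X₂ (n + 1) h1 h3

end Fermat.Agent.S57.FLPD
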