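import Mathlib

set_option autoImplicit false

namespace Fermat.Agent.S57.FreeOfPD

open CategoryTheory

theorem free_of_isWeaklyRegular_of_hasProjectiveDimensionLE {R : Type} [CommRing R] [IsLocalRing R]
    [IsNoetherianRing R]
    (Q : Type) [AddCommGroup Q] [Module R Q] [Module.Finite R Q] [Nontrivial Q] (rs : List R)
    (hreg : RingTheory.Sequence.IsWeaklyRegular Q rs)
    (hmem : ∀ x ∈ rs, x ∈ IsLocalRing.maximalIdeal R)
    (hpd : HasProjectiveDimensionLE
      (ModuleCat.of R (Q ⧸ Ideal.ofList rs • (⊤ : Submodule R Q))) rs.length) :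
    Module.Free R Q := by
  have h := ModuleCat.projectiveDimension_quotient_eq_add_length_of_isWeaklyRegular.{0}
    (ModuleCat.of R Q) rs hreg hmem
  have h2 : projectiveDimension (ModuleCat.of R (Q ⧸ Ideal.ofList rs • (⊤ : Submodule R Q))) ≤
      (rs.length : ℕ) := (projectiveDimension_le_iff _ _).mpr hpd
  rw [h] at h2
  have h3 : projectiveDimension (ModuleCat.of R Q) ≤ (0 : ℕ) := by
    have h2' : projectiveDimension (ModuleCat.of R Q) + (rs.length : ℕ) ≤
        ((0 : ℕ) : WithBot ℕ∞) + (rs.length : ℕ) := by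
      simpa using h2
    exact (ENat.WithBot.add_le_add_natCast_right_iff).mp h2'
  have h4 : HasProjectiveDimensionLE (ModuleCat.of R Q) 0 := (projectiveDimension_le_iff _ _).mp h3
  have h5 : Projective (ModuleCat.of R Q) := projective_iff_hasProjectiveDimensionLT_one.mpr h4
  have h6 : Module.Projective R Q := (IsProjective.iff_projective Q).mpr h5
  exact Module.free_of_flat_of_isLocalRing

end Fermat.Agent.S57.FreeOfPD
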