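import Mathlib

set_option autoImplicit false

namespace Fermat.Agent.S57

open IsLocalRing Pointwise

universe u

/-- Exchange step: if `x ∈ 𝔪 \ 𝔪²` and `f : A → A'` is a surjective map of local rings killing `x`,
then the maximal ideal of `A'` needs one generator fewer. -/
theorem spanFinrank_maximalIdeal_succ_le_of_surjective
    {A : Type u} [CommRing A] [IsLocalRing A] [IsNoetherianRing A]
    {A' : Type u} [CommRing A'] [IsLocalRing A']
    (f : A →+* A') (hf : Function.Surjective f) {x : A} (hfx : f x = 0)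
    (hx : x ∈ maximalIdeal A) (hx2 : x ∉ maximalIdeal A ^ 2) :
    (maximalIdeal A').spanFinrank + 1 ≤ (maximalIdeal A).spanFinrank := by
  classical
  obtain ⟨s, hscard, hsspan⟩ :=
    Submodule.FG.exists_span_finset_card_eq_spanFinrank (maximalIdeal A).fg_of_isNoetherianRing
  have hxs : x ∈ Submodule.span A (s : Set A) := by rw [hsspan]; exact hx
  obtain ⟨a, -, hax⟩ := Submodule.mem_span_finset.mp hxs
  -- some coefficient is a unit
  have hex : ∃ z0 ∈ s, IsUnit (a z0) := by
    by_contra hcon
    push Not at hcon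
    apply hx2
    rw [← hax, pow_two]
    refine Ideal.sum_mem _ fun z hz => ?_
    have hz' : z ∈ maximalIdeal A := by
      have : z ∈ Submodule.span A (s : Set A) := Submodule.subset_span hz
      rwa [hsspan] at this
    exact Ideal.mul_mem_mul ((mem_maximalIdeal _).mpr (hcon z hz)) hz'
  obtain ⟨z0, hz0, hu⟩ := hex
  obtain ⟨u, hu⟩ := hu
  -- the image of the other generators spans the maximal ideal of `A'`
  have hmap : maximalIdeal A' = Ideal.span (f '' ((s.erase z0 : Finset A) : Set A)) := by
    rw [← map_maximalIdeal_of_surjective f hf]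
    have hsspan' : maximalIdeal A = Ideal.span (s : Set A) := hsspan.symm
    rw [hsspan', Ideal.map_span]
    apply le_antisymm
    · rw [Ideal.span_le]
      rintro _ ⟨z, hz, rfl⟩
      by_cases hzz : z = z0
      · subst hzz
        -- `f z = - u⁻¹ * ∑_{w ≠ z} f (a w) * f w`
        have hsum : ∑ w ∈ s, a w • w = a z • z + ∑ w ∈ s.erase z, a w • w := by
          rw [Finset.add_sum_erase s (fun w => a w • w) hz0]
        have hfz : f z = - f ((u⁻¹ : Aˣ) : A) * ∑ w ∈ s.erase z, f (a w) * f w := by
          have h0 : f (∑ w ∈ s, a w • w) = 0 := by rw [hax, hfx]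
          rw [hsum, map_add, map_sum] at h0
          simp only [smul_eq_mul, map_mul] at h0
          have h1 : f (a z) * f z = - ∑ w ∈ s.erase z, f (a w) * f w := by
            rw [eq_neg_iff_add_eq_zero]; exact h0
          have h2 : f ((u⁻¹ : Aˣ) : A) * f (a z) = 1 := by
            rw [← map_mul, ← hu, Units.inv_mul, map_one]
          calc f z = (f ((u⁻¹ : Aˣ) : A) * f (a z)) * f z := by rw [h2, one_mul]
            _ = f ((u⁻¹ : Aˣ) : A) * (f (a z) * f z) := by ring
            _ = _ := by rw [h1]; ring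
        rw [SetLike.mem_coe, hfz]
        refine Ideal.mul_mem_left _ _ (Ideal.sum_mem _ fun w hw => ?_)
        exact Ideal.mul_mem_left _ _ (Ideal.subset_span ⟨w, hw, rfl⟩)
      · exact Ideal.subset_span ⟨z, Finset.mem_erase.mpr ⟨hzz, hz⟩, rfl⟩
    · apply Ideal.span_mono
      apply Set.image_mono
      exact_mod_cast Finset.erase_subset z0 s
  have hfin : (f '' ((s.erase z0 : Finset A) : Set A)).Finite :=
    (Finset.finite_toSet _).image _
  have h1 : (maximalIdeal A').spanFinrank ≤ (f '' ((s.erase z0 : Finset A) : Set A)).ncard := by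
    conv_lhs => rw [hmap]
    exact Submodule.spanFinrank_span_le_ncard_of_finite hfin
  have h2 : (f '' ((s.erase z0 : Finset A) : Set A)).ncard ≤ (s.erase z0).card := by
    have := Set.ncard_image_le (f := f) (Finset.finite_toSet (s.erase z0))
    rwa [Set.ncard_coe_finset] at this
  have h3 : (s.erase z0).card + 1 = s.card := Finset.card_erase_add_one hz0
  omega


/-- Quotient of a regular local ring by an element of `𝔪 \ 𝔪²` is regular local of dimension
one less. -/
theorem isRegularLocalRing_quotient_span_singleton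
    {A : Type u} [CommRing A] [IsRegularLocalRing A] {n : ℕ}
    (hdim : ringKrullDim A = ((n + 1 : ℕ) : WithBot ℕ∞))
    {x : A} (hx : x ∈ maximalIdeal A) (hx2 : x ∉ maximalIdeal A ^ 2) :
    IsRegularLocalRing (A ⧸ Ideal.span {x}) ∧
      ringKrullDim (A ⧸ Ideal.span {x}) = ((n : ℕ) : WithBot ℕ∞) := by
  have hne : Ideal.span {x} ≠ (⊤ : Ideal A) := by
    rw [Ne, Ideal.span_singleton_eq_top]
    exact (mem_maximalIdeal x).mp hx
  have : Nontrivial (A ⧸ Ideal.span {x}) := Ideal.Quotient.nontrivial_iff.mpr hne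
  have : IsLocalRing (A ⧸ Ideal.span {x}) :=
    IsLocalRing.of_surjective' (Ideal.Quotient.mk (Ideal.span {x})) Ideal.Quotient.mk_surjective
  -- dimension lower bound
  have hdim1 : ringKrullDim A ≤ ringKrullDim (A ⧸ Ideal.span {x}) + 1 := by
    have h : Ideal.span {x} = x • (⊤ : Ideal A) := by
      simp [← Submodule.ideal_span_singleton_smul]
    rw [ringKrullDim_eq_of_ringEquiv (Ideal.quotientEquivAlgOfEq A h).toRingEquiv]
    exact ringKrullDim_le_ringKrullDim_quotSMulTop_succ hx
  have hge : ((n : ℕ) : WithBot ℕ∞) ≤ ringKrullDim (A ⧸ Ideal.span {x}) := by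
    rw [hdim] at hdim1
    have h1 : ((n : ℕ) : WithBot ℕ∞) + ((1 : ℕ) : WithBot ℕ∞)
        ≤ ringKrullDim (A ⧸ Ideal.span {x}) + ((1 : ℕ) : WithBot ℕ∞) := by
      simpa using hdim1
    exact ENat.WithBot.add_le_add_natCast_right_iff.mp h1
  -- generator count upper bound
  have hspan : (maximalIdeal (A ⧸ Ideal.span {x})).spanFinrank + 1 ≤
      (maximalIdeal A).spanFinrank :=
    spanFinrank_maximalIdeal_succ_le_of_surjective (Ideal.Quotient.mk (Ideal.span {x}))
      Ideal.Quotient.mk_surjective
      (Ideal.Quotient.eq_zero_iff_mem.mpr (Ideal.mem_span_singleton_self x)) hx hx2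
  have hA : ((maximalIdeal A).spanFinrank : WithBot ℕ∞) = ((n + 1 : ℕ) : WithBot ℕ∞) := by
    rw [IsRegularLocalRing.spanFinrank_maximalIdeal, hdim]
  have hA' : (maximalIdeal A).spanFinrank = n + 1 := by exact_mod_cast hA
  have hle : (maximalIdeal (A ⧸ Ideal.span {x})).spanFinrank ≤ n := by omega
  have hle' : ((maximalIdeal (A ⧸ Ideal.span {x})).spanFinrank : WithBot ℕ∞) ≤
      ((n : ℕ) : WithBot ℕ∞) := by exact_mod_cast hle
  have hreg : IsRegularLocalRing (A ⧸ Ideal.span {x}) :=
    IsRegularLocalRing.of_spanFinrank_maximalIdeal_le _ (hle'.trans hge)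
  refine ⟨hreg, le_antisymm ?_ hge⟩
  exact (ringKrullDim_le_spanFinrank_maximalIdeal _).trans hle'

end Fermat.Agent.S57
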