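import Mathlib
import Fermat.Agent.S57.H27RegQuot

set_option autoImplicit false

namespace Fermat.Agent.S57

open IsLocalRing Pointwise RingTheory.Sequence

universe u v

/-- In a Noetherian local ring which is not a field, and a finite module `N'` on which some
element of the maximal ideal is regular, there is an element of `𝔪 \ 𝔪²` regular on `N'`. -/
theorem exists_regular_notMem_sq
    {A : Type u} [CommRing A] [IsLocalRing A] [IsNoetherianRing A]
    (hm : maximalIdeal A ≠ ⊥)
    (N' : Type v) [AddCommGroup N'] [Module A N'] [Module.Finite A N']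
    {y : A} (hy : y ∈ maximalIdeal A) (hyreg : IsSMulRegular N' y) :
    ∃ x ∈ maximalIdeal A, x ∉ maximalIdeal A ^ 2 ∧ IsSMulRegular N' x := by
  classical
  by_contra hcon
  push Not at hcon
  have hfin : (associatedPrimes A N').Finite := associatedPrimes.finite A N'
  have hunion := biUnion_associatedPrimes_eq_compl_regular A N'
  let s : Finset (Ideal A) := insert (maximalIdeal A ^ 2) hfin.toFinset
  have hsub : ((maximalIdeal A : Ideal A) : Set A) ⊆ ⋃ i ∈ (s : Set (Ideal A)), ((id i : Ideal A) : Set A) := by
    intro z hz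
    by_cases hz2 : z ∈ maximalIdeal A ^ 2
    · refine Set.mem_biUnion (x := maximalIdeal A ^ 2) ?_ hz2
      simp [s]
    · have hnr : ¬ IsSMulRegular N' z := fun h => hcon z hz hz2 h
      have hzmem : z ∈ ({r | IsSMulRegular N' r}ᶜ : Set A) := hnr
      rw [← hunion] at hzmem
      obtain ⟨p, hp, hzp⟩ := Set.mem_iUnion₂.mp hzmem
      refine Set.mem_biUnion (x := p) ?_ hzp
      simp [s, hp]
  have hprime : ∀ i ∈ s, i ≠ maximalIdeal A ^ 2 → i ≠ maximalIdeal A ^ 2 → (id i : Ideal A).IsPrime := by
    intro i hi hne _
    have : i ∈ associatedPrimes A N' := by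
      rcases Finset.mem_insert.mp hi with h | h
      · exact absurd h hne
      · exact (hfin.mem_toFinset).mp h
    exact IsAssociatedPrime.isPrime this
  obtain ⟨i, hi, hle⟩ := (Ideal.subset_union_prime (f := id) (maximalIdeal A ^ 2)
    (maximalIdeal A ^ 2) hprime).mp hsub
  rcases Finset.mem_insert.mp hi with h | h
  · -- `𝔪 ≤ 𝔪²` contradicts Nakayama
    apply hm
    have hle' : maximalIdeal A ≤ maximalIdeal A • maximalIdeal A := by
      rw [smul_eq_mul, ← pow_two, ← h]; exact hle
    exact Submodule.eq_bot_of_le_smul_of_le_jacobson_bot (maximalIdeal A) (maximalIdeal A)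
      (maximalIdeal A).fg_of_isNoetherianRing hle'
      (IsLocalRing.maximalIdeal_le_jacobson _)
  · have hip : i ∈ associatedPrimes A N' := (hfin.mem_toFinset).mp h
    have : y ∈ ({r | IsSMulRegular N' r}ᶜ : Set A) := by
      rw [← hunion]
      exact Set.mem_biUnion hip (hle hy)
    exact this hyreg

/-- A finitely generated module over a regular local ring `A` admitting a weakly regular sequence
of length `dim A` inside the maximal ideal is free. -/
theorem free_of_isWeaklyRegular_of_length_eq (n : ℕ) :
    ∀ (A : Type u) [CommRing A] [IsRegularLocalRing A]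
      (_ : ringKrullDim A = ((n : ℕ) : WithBot ℕ∞))
      (N : Type v) [AddCommGroup N] [Module A N] [Module.Finite A N]
      (rs : List A) (_ : ∀ r ∈ rs, r ∈ maximalIdeal A) (_ : rs.length = n)
      (_ : IsWeaklyRegular N rs), Module.Free A N := by
  induction n with
  | zero =>
    intro A _ _ hdim N _ _ _ rs _ _ _
    have h0 : ((maximalIdeal A).spanFinrank : WithBot ℕ∞) = ((0 : ℕ) : WithBot ℕ∞) := by
      rw [IsRegularLocalRing.spanFinrank_maximalIdeal, hdim]
    have h0' : (maximalIdeal A).spanFinrank = 0 := by exact_mod_cast h0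
    have hbot : maximalIdeal A = ⊥ :=
      (Submodule.spanFinrank_eq_zero_iff_eq_bot (maximalIdeal A).fg_of_isNoetherianRing).mp h0'
    have hfield : IsField A := isField_iff_maximalIdeal_eq.mpr hbot
    letI := hfield.toField
    exact Module.Free.of_divisionRing A N
  | succ n ih =>
    intro A _ _ hdim N _ _ _ rs hmem hlen hreg
    by_cases hN : Subsingleton N
    · exact Module.Free.of_subsingleton A N
    have hne : rs ≠ [] := by
      intro h; rw [h] at hlen; simp at hlen
    obtain ⟨ys, y, rfl⟩ : ∃ ys y, rs = ys ++ [y] :=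
      ⟨rs.dropLast, rs.getLast hne, (List.dropLast_append_getLast hne).symm⟩
    have hys_len : ys.length = n := by simpa using hlen
    obtain ⟨hys, hy⟩ := (isWeaklyRegular_append_iff N ys [y]).mp hreg
    rw [isWeaklyRegular_singleton_iff] at hy
    have hymem : y ∈ maximalIdeal A := hmem y (by simp)
    have hysmem : ∀ r ∈ ys, r ∈ maximalIdeal A := fun r hr => hmem r (by simp [hr])
    -- the maximal ideal is nonzero
    have hm : maximalIdeal A ≠ ⊥ := by
      intro hbot
      have h0 : ((maximalIdeal A).spanFinrank : WithBot ℕ∞) = ((n + 1 : ℕ) : WithBot ℕ∞) := by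
        rw [IsRegularLocalRing.spanFinrank_maximalIdeal, hdim]
      have h0' : (maximalIdeal A).spanFinrank = n + 1 := by exact_mod_cast h0
      rw [hbot, Submodule.spanFinrank_bot] at h0'
      omega
    obtain ⟨x, hxm, hx2, hxreg⟩ :=
      exists_regular_notMem_sq hm (N ⧸ (Ideal.ofList ys • ⊤ : Submodule A N)) hymem hy
    have hreg2 : IsWeaklyRegular N (ys ++ [x]) :=
      (isWeaklyRegular_append_iff N ys [x]).mpr
        ⟨hys, (isWeaklyRegular_singleton_iff _ x).mpr hxreg⟩
    have hnoeth : IsNoetherian A N := isNoetherian_of_isNoetherianRing_of_finite A N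
    have hreg3 : IsWeaklyRegular N (x :: ys) :=
      IsLocalRing.isWeaklyRegular_of_perm_of_subset_maximalIdeal hreg2
        (List.perm_append_singleton x ys) (by
          intro r hr
          rcases List.mem_append.mp hr with h | h
          · exact hysmem r h
          · rw [List.mem_singleton.mp h]; exact hxm)
    obtain ⟨hxN, hreg4⟩ := (isWeaklyRegular_cons_iff' N x ys).mp hreg3
    obtain ⟨hRLR, hdim'⟩ := isRegularLocalRing_quotient_span_singleton hdim hxm hx2
    have hfin' : Module.Finite (A ⧸ Ideal.span {x}) (QuotSMulTop x N) :=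
      Module.Finite.of_restrictScalars_finite A (A ⧸ Ideal.span {x}) (QuotSMulTop x N)
    have hmem' : ∀ r ∈ ys.map (Ideal.Quotient.mk (Ideal.span {x})),
        r ∈ maximalIdeal (A ⧸ Ideal.span {x}) := by
      intro r hr
      obtain ⟨r0, hr0, rfl⟩ := List.mem_map.mp hr
      rw [← map_maximalIdeal_of_surjective (Ideal.Quotient.mk (Ideal.span {x}))
        Ideal.Quotient.mk_surjective]
      exact Ideal.mem_map_of_mem _ (hysmem r0 hr0)
    have hfree' : Module.Free (A ⧸ Ideal.span {x}) (QuotSMulTop x N) :=
      ih (A ⧸ Ideal.span {x}) hdim' (QuotSMulTop x N)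
        (ys.map (Ideal.Quotient.mk (Ideal.span {x}))) hmem' (by simpa using hys_len) hreg4
    have hfp : Module.FinitePresentation A N := Module.finitePresentation_of_finite A N
    have hjac : x ∈ (⊥ : Ideal A).jacobson := by
      rw [IsLocalRing.jacobson_eq_maximalIdeal ⊥ bot_ne_top]; exact hxm
    exact (Module.free_quotSMulTop_iff_free A N hjac hxN).mp hfree'

end Fermat.Agent.S57
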