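import Mathlib

set_option autoImplicit false

namespace Fermat.Agent.S57

open IsLocalRing Pointwise RingTheory.Sequence

universe u

/-- Power series over a regular local ring form a regular local ring of dimension one more. -/
theorem isRegularLocalRing_powerSeries (R : Type u) [CommRing R] [IsRegularLocalRing R] :
    IsRegularLocalRing (PowerSeries R) ∧ ringKrullDim (PowerSeries R) = ringKrullDim R + 1 := by
  have hXmem : (PowerSeries.X : PowerSeries R) ∈ maximalIdeal (PowerSeries R) := by
    rw [mem_maximalIdeal, mem_nonunits_iff, PowerSeries.isUnit_iff_constantCoeff]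
    simp
  have h1 : (maximalIdeal (PowerSeries R)).spanFinrank ≤
      (Ideal.map PowerSeries.constantCoeff (maximalIdeal (PowerSeries R))).spanFinrank + 1 :=
    PowerSeries.spanFinrank_le_spanFinrank_map_constantCoeff_add_one_of_X_mem hXmem
  have h2 : Ideal.map PowerSeries.constantCoeff (maximalIdeal (PowerSeries R)) = maximalIdeal R :=
    map_maximalIdeal_of_surjective (PowerSeries.constantCoeff (R := R))
      PowerSeries.constantCoeff_surj
  rw [h2] at h1
  have h3 : ((maximalIdeal (PowerSeries R)).spanFinrank : WithBot ℕ∞) ≤ ringKrullDim R + 1 := by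
    rw [← IsRegularLocalRing.spanFinrank_maximalIdeal (R := R)]
    exact_mod_cast h1
  have h4 : ringKrullDim R + 1 ≤ ringKrullDim (PowerSeries R) :=
    ringKrullDim_succ_le_ringKrullDim_powerseries
  have hreg : IsRegularLocalRing (PowerSeries R) :=
    IsRegularLocalRing.of_spanFinrank_maximalIdeal_le _ (h3.trans h4)
  refine ⟨hreg, le_antisymm ?_ h4⟩
  exact (ringKrullDim_le_spanFinrank_maximalIdeal _).trans h3

/-- Multivariate power series in finitely many variables over a regular local ring. -/
theorem isRegularLocalRing_mvPowerSeries_fin (R : Type u) [CommRing R] [IsRegularLocalRing R]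
    (r : ℕ) :
    IsRegularLocalRing (MvPowerSeries (Fin r) R) ∧
      ringKrullDim (MvPowerSeries (Fin r) R) = ringKrullDim R + ((r : ℕ) : WithBot ℕ∞) := by
  induction r with
  | zero =>
    have e : R ≃+* MvPowerSeries (Fin 0) R := (MvPowerSeries.isEmptyEquiv (Fin 0) R).toRingEquiv.symm
    refine ⟨IsRegularLocalRing.of_ringEquiv e, ?_⟩
    rw [← ringKrullDim_eq_of_ringEquiv e]
    simp
  | succ r ih =>
    obtain ⟨hreg, hdim⟩ := ih
    obtain ⟨hreg', hdim'⟩ := isRegularLocalRing_powerSeries (MvPowerSeries (Fin r) R)
    have e : PowerSeries (MvPowerSeries (Fin r) R) ≃+* MvPowerSeries (Fin (r + 1)) R :=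
      (MvPowerSeries.finSuccEquiv R r).toRingEquiv.symm
    refine ⟨IsRegularLocalRing.of_ringEquiv e, ?_⟩
    rw [← ringKrullDim_eq_of_ringEquiv e, hdim', hdim]
    push_cast
    rw [add_assoc]


/-- The additive equivalence `S⟦X⟧ / X ≃ S`. -/
noncomputable def quotXAddEquiv (S : Type u) [CommRing S] :
    QuotSMulTop (PowerSeries.X : PowerSeries S) (PowerSeries S) ≃+ S :=
  (QuotientAddGroup.quotientAddEquivOfEq (by
    ext f
    rw [Submodule.mem_toAddSubgroup, Submodule.mem_smul_pointwise_iff_exists, AddMonoidHom.mem_ker]
    constructor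
    · rintro ⟨g, -, rfl⟩
      simp
    · intro h
      have h' : PowerSeries.constantCoeff f = 0 := h
      obtain ⟨g, rfl⟩ := PowerSeries.X_dvd_iff.mpr h'
      exact ⟨g, Submodule.mem_top, rfl⟩)).trans
  (QuotientAddGroup.quotientKerEquivOfSurjective
    ((PowerSeries.constantCoeff (R := S)).toAddMonoidHom) PowerSeries.constantCoeff_surj)

theorem quotXAddEquiv_mk (S : Type u) [CommRing S] (f : PowerSeries S) :
    quotXAddEquiv S (Submodule.Quotient.mk f) = PowerSeries.constantCoeff f := rfl

/-- If `ts` is weakly regular on `S`, then `X :: ts.map C` is weakly regular on `S⟦X⟧`. -/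
theorem isWeaklyRegular_powerSeries_X_cons (S : Type u) [CommRing S] (ts : List S)
    (h : IsWeaklyRegular S ts) :
    IsWeaklyRegular (PowerSeries S)
      ((PowerSeries.X : PowerSeries S) :: ts.map (PowerSeries.C (R := S))) := by
  rw [isWeaklyRegular_cons_iff]
  refine ⟨?_, ?_⟩
  · have hX : (PowerSeries.X : PowerSeries S) ∈ nonZeroDivisors (PowerSeries S) :=
      MvPowerSeries.X_mem_nonzeroDivisors
    have hreg : IsRegular (PowerSeries.X : PowerSeries S) :=
      (le_nonZeroDivisors_iff_isRegular (S := nonZeroDivisors (PowerSeries S))).mp le_rfl ⟨_, hX⟩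
    exact isLeftRegular_iff.mp hreg.left
  · refine (AddEquiv.isWeaklyRegular_congr (e := quotXAddEquiv S) ?_).mpr h
    refine List.forall₂_map_left_iff.mpr (List.forall₂_same.mpr fun t _ x => ?_)
    induction x using Submodule.Quotient.induction_on with
    | H f =>
      rw [← Submodule.Quotient.mk_smul, quotXAddEquiv_mk, quotXAddEquiv_mk]
      simp


/-- A ring isomorphism transports weakly regular sequences of the ring on itself. -/
theorem isWeaklyRegular_map_ringEquiv {S T : Type u} [CommRing S] [CommRing T] (F : S ≃+* T)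
    (rs : List S) : IsWeaklyRegular S rs ↔ IsWeaklyRegular T (rs.map F) := by
  refine AddEquiv.isWeaklyRegular_congr (e := F.toAddEquiv) ?_
  refine List.forall₂_map_right_iff.mpr (List.forall₂_same.mpr fun t _ x => ?_)
  simp

/-- The variables followed by (the constants of) a weakly regular sequence of the base ring form a
weakly regular sequence in the power series ring. -/
theorem isWeaklyRegular_mvPowerSeries (R : Type u) [CommRing R] (ss : List R)
    (h : IsWeaklyRegular R ss) (r : ℕ) :
    IsWeaklyRegular (MvPowerSeries (Fin r) R)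
      (List.ofFn (fun i : Fin r => (MvPowerSeries.X i : MvPowerSeries (Fin r) R)) ++
        ss.map (MvPowerSeries.C (σ := Fin r) (R := R))) := by
  induction r with
  | zero =>
    let e : R ≃+* MvPowerSeries (Fin 0) R := (MvPowerSeries.isEmptyEquiv (Fin 0) R).toRingEquiv.symm
    have h1 := (isWeaklyRegular_map_ringEquiv e ss).mp h
    have h2 : ss.map e = ss.map (MvPowerSeries.C (σ := Fin 0) (R := R)) := by
      apply List.map_congr_left
      intro a _
      rfl
    simpa [h2] using h1
  | succ r ih =>
    have h1 := isWeaklyRegular_powerSeries_X_cons (MvPowerSeries (Fin r) R) _ ih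
    have hlist : (List.ofFn (fun i : Fin (r + 1) =>
          (MvPowerSeries.X i : MvPowerSeries (Fin (r + 1)) R)) ++
        ss.map (MvPowerSeries.C (σ := Fin (r + 1)) (R := R))).map
          (MvPowerSeries.finSuccEquiv R r).toRingEquiv =
        (PowerSeries.X : PowerSeries (MvPowerSeries (Fin r) R)) ::
          (List.ofFn (fun i : Fin r => (MvPowerSeries.X i : MvPowerSeries (Fin r) R)) ++
            ss.map (MvPowerSeries.C (σ := Fin r) (R := R))).map
              (PowerSeries.C (R := MvPowerSeries (Fin r) R)) := by
      simp [List.ofFn_succ, Function.comp_def]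
    rw [isWeaklyRegular_map_ringEquiv (MvPowerSeries.finSuccEquiv R r).toRingEquiv, hlist]
    exact h1

end Fermat.Agent.S57
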