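/-
Maximal Cohen-Macaulay modules over a regular local ring are free
(proved by induction on the dimension, using prime avoidance, the Rees theorem and
`Module.free_quotSMulTop_iff_free`; no Auslander-Buchsbaum formula needed).

Main result: `Fermat.Agent.S57.MCMFree.free_of_isRegular`.
-/
import Mathlib

set_option autoImplicit false

open IsLocalRing RingTheory.Sequence CategoryTheory Abelian

universe u

namespace Fermat.Agent.S57.MCMFree

section Cotangent

variable {A : Type*} [CommRing A] [IsLocalRing A] [IsNoetherianRing A]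

/-- If `x ∈ 𝔪 \ 𝔪²`, then `𝔪` is generated by `x` together with
at most `spanFinrank 𝔪 - 1` further elements. -/
theorem exists_span_insert_eq_maximalIdeal {x : A} (hx : x ∈ maximalIdeal A)
    (hx2 : x ∉ maximalIdeal A ^ 2) :
    ∃ s : Finset A, s.card + 1 ≤ (maximalIdeal A).spanFinrank ∧
      Ideal.span (insert x (s : Set A)) = maximalIdeal A := by
  classical
  set k := ResidueField A
  set V := CotangentSpace A
  set v : V := (maximalIdeal A).toCotangent ⟨x, hx⟩ with hv
  have hv0 : v ≠ 0 := by
    rw [hv, Ne, Ideal.toCotangent_eq_zero]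
    exact hx2
  have hli : LinearIndepOn k id ({v} : Set V) := by
    rw [linearIndepOn_singleton_iff]
    exact hv0
  let b := Module.Basis.extend hli
  have hvb : v ∈ hli.extend (Set.subset_univ _) := Module.Basis.subset_extend hli rfl
  have hfinB : Finite (hli.extend (Set.subset_univ ({v} : Set V))) := Module.Finite.finite_basis b
  have hfin : (hli.extend (Set.subset_univ ({v} : Set V))).Finite := Set.toFinite _
  set t : Set V := hli.extend (Set.subset_univ _) \ {v} with ht
  have htfin : t.Finite := hfin.subset Set.sdiff_subset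
  let lift : V → maximalIdeal A := Function.surjInv (maximalIdeal A).toCotangent_surjective
  have hlift : ∀ w, (maximalIdeal A).toCotangent (lift w) = w :=
    Function.surjInv_eq (maximalIdeal A).toCotangent_surjective
  let s : Finset A := htfin.toFinset.image (fun w => (lift w : A))
  refine ⟨s, ?_, ?_⟩
  · have h1 : s.card ≤ htfin.toFinset.card := Finset.card_image_le
    have h2 : htfin.toFinset.card = t.ncard := (Set.ncard_eq_toFinset_card t htfin).symm
    have h3 : t.ncard + 1 = (hli.extend (Set.subset_univ ({v} : Set V))).ncard := by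
      rw [ht]
      exact Set.ncard_sdiff_singleton_add_one hvb hfin
    have h4 : (hli.extend (Set.subset_univ ({v} : Set V))).ncard = Module.finrank k V := by
      rw [Module.finrank_eq_nat_card_basis b]
      rfl
    have h5 : (maximalIdeal A).spanFinrank = Module.finrank k V :=
      spanFinrank_maximalIdeal_eq_finrank_cotangentSpace A
    omega
  · let S' : Set (maximalIdeal A) := insert ⟨x, hx⟩ (lift '' t)
    have himg : (maximalIdeal A).toCotangent '' S' =
        hli.extend (Set.subset_univ ({v} : Set V)) := by
      rw [Set.image_insert_eq, Set.image_image]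
      simp only [hlift, Set.image_id']
      rw [← hv, ht, Set.insert_sdiff_singleton, Set.insert_eq_of_mem hvb]
    have hspan : Submodule.span k ((maximalIdeal A).toCotangent '' S') = ⊤ := by
      rw [himg]
      have := b.span_eq
      rwa [Module.Basis.range_extend] at this
    rw [CotangentSpace.span_image_eq_top_iff] at hspan
    have := congrArg (Submodule.map (maximalIdeal A).subtype) hspan
    rw [Submodule.map_span, Submodule.map_top, Submodule.range_subtype] at this
    rw [← this]
    congr 1
    ext a
    simp only [S', s, Set.image_insert_eq, Set.image_image, Finset.coe_image,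
      Set.Finite.coe_toFinset, Submodule.subtype_apply]

end Cotangent

theorem isLocalRing_quotient_span_singleton {A : Type*} [CommRing A] [IsLocalRing A]
    {x : A} (hx : x ∈ maximalIdeal A) :
    IsLocalRing (A ⧸ Ideal.span {x}) := by
  have hne : Ideal.span {x} ≠ ⊤ := by
    rw [Ne, Ideal.span_singleton_eq_top]
    exact hx
  have : Nontrivial (A ⧸ Ideal.span {x}) := Ideal.Quotient.nontrivial_iff.mpr hne
  exact IsLocalRing.of_surjective' (Ideal.Quotient.mk _) Ideal.Quotient.mk_surjective

/-- Quotient of a regular local ring by `x ∈ 𝔪 \ 𝔪²` is regular local of dimension one less. -/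
theorem isRegularLocalRing_quotient_span_singleton {A : Type*} [CommRing A]
    [IsRegularLocalRing A] {x : A} (hx : x ∈ maximalIdeal A) (hx2 : x ∉ maximalIdeal A ^ 2) :
    IsRegularLocalRing (A ⧸ Ideal.span {x}) ∧
      ringKrullDim (A ⧸ Ideal.span {x}) + 1 = ringKrullDim A := by
  classical
  have := isLocalRing_quotient_span_singleton hx
  obtain ⟨s, hs, hspan⟩ := exists_span_insert_eq_maximalIdeal hx hx2
  set A' := A ⧸ Ideal.span {x} with hA'
  set f : A →+* A' := Ideal.Quotient.mk _ with hf
  have hmax : maximalIdeal A' = Ideal.span (f '' (s : Set A)) := by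
    rw [← map_maximalIdeal_of_surjective f Ideal.Quotient.mk_surjective, ← hspan,
      Ideal.map_span, Set.image_insert_eq]
    have : f x = 0 := Ideal.Quotient.eq_zero_iff_mem.mpr (Ideal.mem_span_singleton_self x)
    rw [this]
    exact Ideal.span_insert_zero
  have h1 : (maximalIdeal A').spanFinrank ≤ s.card := by
    rw [hmax]
    refine (Submodule.spanFinrank_span_le_ncard_of_finite (s.finite_toSet.image f)).trans ?_
    refine (Set.ncard_image_le s.finite_toSet).trans ?_
    rw [Set.ncard_coe_finset]
  have hdimA : ((maximalIdeal A).spanFinrank : WithBot ℕ∞) = ringKrullDim A :=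
    IsRegularLocalRing.spanFinrank_maximalIdeal
  have h2 : ringKrullDim A ≤ ringKrullDim A' + 1 := by
    have := ringKrullDim_le_ringKrullDim_quotient_add_card ({x} : Finset A) (by
      rw [ringJacobson_eq_maximalIdeal]
      simpa using hx)
    rw [Finset.coe_singleton, Finset.card_singleton, Nat.cast_one] at this
    exact this
  have h3 : ringKrullDim A' ≤ (maximalIdeal A').spanFinrank :=
    ringKrullDim_le_spanFinrank_maximalIdeal A'
  obtain ⟨e, he⟩ : ∃ e : ℕ, (maximalIdeal A).spanFinrank = e + 1 :=
    ⟨(maximalIdeal A).spanFinrank - 1, by omega⟩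
  have h4 : (maximalIdeal A').spanFinrank ≤ e := by omega
  have h5 : ringKrullDim A = ((e : ℕ) : WithBot ℕ∞) + 1 := by
    rw [← hdimA, he]; push_cast; rfl
  have h6 : ringKrullDim A' ≤ (e : WithBot ℕ∞) := h3.trans (by exact_mod_cast h4)
  have h7 : (e : WithBot ℕ∞) ≤ ringKrullDim A' := by
    rw [h5] at h2
    have hd : ringKrullDim A' ≠ ⊥ := ringKrullDim_ne_bot
    obtain ⟨d, hd'⟩ := WithBot.ne_bot_iff_exists.mp hd
    rw [← hd'] at h2 ⊢
    have h2' : ((e : ℕ∞) + 1 : ℕ∞) ≤ d + 1 := by exact_mod_cast h2
    have : (e : ℕ∞) ≤ d := (ENat.add_le_add_iff_right ENat.one_ne_top).mp h2'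
    exact_mod_cast this
  have h8 : ringKrullDim A' = (e : WithBot ℕ∞) := le_antisymm h6 h7
  refine ⟨IsRegularLocalRing.of_spanFinrank_maximalIdeal_le _ ?_, ?_⟩
  · rw [h8]; exact_mod_cast h4
  · rw [h8, h5]

/-- Prime avoidance: a regular element of the maximal ideal can be chosen outside `𝔪²`. -/
theorem exists_mem_maximalIdeal_notMem_sq_isSMulRegular {A N : Type*} [CommRing A]
    [IsLocalRing A] [IsNoetherianRing A] [AddCommGroup N] [Module A N] [Module.Finite A N]
    (hm : maximalIdeal A ≠ ⊥) {y : A} (hy : y ∈ maximalIdeal A) (hreg : IsSMulRegular N y) :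
    ∃ x ∈ maximalIdeal A, x ∉ maximalIdeal A ^ 2 ∧ IsSMulRegular N x := by
  classical
  by_contra hcon
  have hcon' : ∀ x ∈ maximalIdeal A, x ∉ maximalIdeal A ^ 2 → ¬ IsSMulRegular N x := by
    intro x hx hx2 hxr
    exact hcon ⟨x, hx, hx2, hxr⟩
  have hfin : (associatedPrimes A N).Finite := associatedPrimes.finite A N
  let s : Finset (Option (Ideal A)) := insert none (hfin.toFinset.image some)
  let f : Option (Ideal A) → Ideal A := fun o => o.elim (maximalIdeal A ^ 2) id
  have hsub : ((maximalIdeal A : Ideal A) : Set A) ⊆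
      ⋃ i ∈ (s : Set (Option (Ideal A))), (f i : Set A) := by
    intro x hx
    by_cases hx2 : x ∈ maximalIdeal A ^ 2
    · refine Set.mem_biUnion (x := none) (by simp [s]) ?_
      exact hx2
    · have hnr : ¬ IsSMulRegular N x := hcon' x hx hx2
      have hmem : x ∈ ({r : A | IsSMulRegular N r}ᶜ : Set A) := hnr
      rw [← biUnion_associatedPrimes_eq_compl_regular A N] at hmem
      obtain ⟨p, hp, hxp⟩ := Set.mem_iUnion₂.mp hmem
      refine Set.mem_biUnion (x := some p) (by simp [s, hp]) ?_
      exact hxp
  have hprime : ∀ i ∈ s, i ≠ none → i ≠ none → (f i).IsPrime := by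
    intro i hi hne _
    rcases i with _ | p
    · exact absurd rfl hne
    · have : p ∈ associatedPrimes A N := by
        simpa [s] using hi
      exact (this : IsAssociatedPrime p N).isPrime
  obtain ⟨i, hi, hle⟩ := (Ideal.subset_union_prime (R := A) none none hprime).mp hsub
  rcases i with _ | p
  · have hle' : maximalIdeal A ≤ maximalIdeal A ^ 2 := hle
    have hidem : IsIdempotentElem (maximalIdeal A) := by
      rw [IsIdempotentElem, ← pow_two]
      exact le_antisymm (Ideal.pow_le_self two_ne_zero) hle'
    rw [Ideal.isIdempotentElem_iff_eq_bot_or_top_of_isLocalRing] at hidem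
    rcases hidem with h | h
    · exact hm h
    · exact (maximalIdeal.isMaximal A).ne_top h
  · have hp : p ∈ associatedPrimes A N := by simpa [s] using hi
    have hyp : y ∈ p := hle hy
    have : y ∈ ⋃ p ∈ associatedPrimes A N, (p : Set A) := Set.mem_biUnion hp hyp
    rw [biUnion_associatedPrimes_eq_compl_regular A N] at this
    exact this hreg

theorem maximalIdeal_smul_top_lt_top {A N : Type*} [CommRing A] [IsLocalRing A]
    [AddCommGroup N] [Module A N] [Module.Finite A N] [Nontrivial N] :
    (maximalIdeal A) • (⊤ : Submodule A N) < ⊤ := by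
  rw [lt_top_iff_ne_top]
  exact (Submodule.top_ne_ideal_smul_of_le_jacobson_annihilator
    (maximalIdeal_le_jacobson _)).symm

/-- Depth drops by (at most) one modulo a regular element (via the Rees theorem). -/
theorem exists_isRegular_quotSMulTop {A N : Type u} [CommRing A] [IsLocalRing A]
    [IsNoetherianRing A] [AddCommGroup N] [Module A N] [Module.Finite A N] {n : ℕ}
    {rs : List A} (hlen : rs.length = n + 1) (hmem : ∀ r ∈ rs, r ∈ maximalIdeal A)
    (hreg : IsRegular N rs) {x : A} (hx : x ∈ maximalIdeal A) (hxreg : IsSMulRegular N x) :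
    ∃ rs' : List A, rs'.length = n ∧ (∀ r ∈ rs', r ∈ maximalIdeal A) ∧
      IsRegular (QuotSMulTop x N) rs' := by
  have hnt : Nontrivial N := hreg.nontrivial
  have hnt' : Nontrivial (QuotSMulTop x N) := nontrivial_quotSMulTop_of_mem_maximalIdeal N hx
  let I := maximalIdeal A
  let N₀ : ModuleCat.{u} A := ModuleCat.of A (Shrink.{u} (A ⧸ I))
  let M : ModuleCat.{u} A := ModuleCat.of A N
  have hMfin : Module.Finite A M := inferInstanceAs (Module.Finite A N)
  have hN₀fin : Module.Finite A N₀ := Module.Finite.equiv (Shrink.linearEquiv A (A ⧸ I)).symm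
  have suppQ : Module.support A N₀ = PrimeSpectrum.zeroLocus I := by
    change Module.support A (Shrink.{u} (A ⧸ I)) = _
    rw [(Shrink.linearEquiv A _).support_eq, Module.support_eq_zeroLocus,
      Ideal.annihilator_quotient]
  have hxreg' : IsSMulRegular M x := hxreg
  have h_ext : ∀ i < rs.length, Subsingleton (Ext N₀ M i) :=
    ModuleCat.subsingleton_ext_of_exists_isRegular I N₀ suppQ.subset M
      maximalIdeal_smul_top_lt_top rs hmem hreg
  have h_ext' : ∀ i < n, Subsingleton (Ext N₀ (ModuleCat.of A (QuotSMulTop x M)) i) := by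
    intro i hi
    have zero1 := AddCommGrpCat.isZero_of_iff_subsingleton.mpr (h_ext i (by omega))
    have zero2 := AddCommGrpCat.isZero_of_iff_subsingleton.mpr (h_ext (i + 1) (by omega))
    exact AddCommGrpCat.subsingleton_of_isZero <| ShortComplex.Exact.isZero_of_both_zeros
      ((Ext.covariant_sequence_exact₃' N₀ hxreg'.smulShortComplex_shortExact) i (i + 1) rfl)
      (zero1.eq_zero_of_src _) (zero2.eq_zero_of_tgt _)
  exact ModuleCat.exists_isRegular_of_exists_subsingleton_ext I n
    (ModuleCat.of A (QuotSMulTop x M)) maximalIdeal_smul_top_lt_top N₀ suppQ h_ext'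

theorem free_of_isRegular_aux (n : ℕ) : ∀ (A : Type u) [CommRing A] [IsRegularLocalRing A]
    (N : Type u) [AddCommGroup N] [Module A N] [Module.Finite A N],
    ringKrullDim A = n →
    (∃ rs : List A, rs.length = n ∧ (∀ r ∈ rs, r ∈ maximalIdeal A) ∧ IsRegular N rs) →
    Module.Free A N := by
  induction n with
  | zero =>
    intro A _ _ N _ _ _ hdim _
    have h0 : (maximalIdeal A).spanFinrank = 0 := by
      have := IsRegularLocalRing.spanFinrank_maximalIdeal (R := A)
      rw [hdim] at this
      exact_mod_cast this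
    have hbot : maximalIdeal A = ⊥ :=
      (Submodule.spanFinrank_eq_zero_iff_eq_bot (maximalIdeal A).fg_of_isNoetherianRing).mp h0
    have hfield : IsField A := IsLocalRing.isField_iff_maximalIdeal_eq.mpr hbot
    let _ := hfield.toField
    exact Module.Free.of_divisionRing A N
  | succ n ih =>
    intro A _ _ N _ _ _ hdim ⟨rs, hlen, hmem, hreg⟩
    have hnt : Nontrivial N := hreg.nontrivial
    have hm : maximalIdeal A ≠ ⊥ := by
      intro hbot
      have hfield : IsField A := IsLocalRing.isField_iff_maximalIdeal_eq.mpr hbot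
      have h0 := ringKrullDim_eq_zero_of_isField hfield
      rw [hdim] at h0
      have : ((n + 1 : ℕ) : WithBot ℕ∞) ≠ 0 := by exact_mod_cast Nat.succ_ne_zero n
      exact this h0
    obtain ⟨y, rs₀, rfl⟩ : ∃ y rs₀, rs = y :: rs₀ := by
      cases rs with
      | nil => simp at hlen
      | cons y rs₀ => exact ⟨y, rs₀, rfl⟩
    have hy : y ∈ maximalIdeal A := hmem y List.mem_cons_self
    have hyreg : IsSMulRegular N y := ((isRegular_cons_iff N y rs₀).mp hreg).1
    obtain ⟨x, hx, hx2, hxreg⟩ := exists_mem_maximalIdeal_notMem_sq_isSMulRegular hm hy hyreg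
    obtain ⟨hA', hdim'⟩ := isRegularLocalRing_quotient_span_singleton hx hx2
    obtain ⟨rs', hlen', hmem', hreg'⟩ := exists_isRegular_quotSMulTop hlen hmem hreg hx hxreg
    have hfin' : Module.Finite (A ⧸ Ideal.span {x}) (QuotSMulTop x N) :=
      Module.Finite.of_restrictScalars_finite A (A ⧸ Ideal.span {x}) (QuotSMulTop x N)
    have hnt' : Nontrivial (QuotSMulTop x N) := hreg'.nontrivial
    have hmapmax : (maximalIdeal A).map (algebraMap A (A ⧸ Ideal.span {x})) = maximalIdeal _ :=
      map_maximalIdeal_of_surjective _ Ideal.Quotient.mk_surjective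
    have hfree' : Module.Free (A ⧸ Ideal.span {x}) (QuotSMulTop x N) := by
      refine ih (A ⧸ Ideal.span {x}) (QuotSMulTop x N) ?_
        ⟨rs'.map (algebraMap A (A ⧸ Ideal.span {x})), ?_, ?_, ?_⟩
      · rw [hdim] at hdim'
        have hd : ringKrullDim (A ⧸ Ideal.span {x}) ≠ ⊥ := ringKrullDim_ne_bot
        obtain ⟨d, hd'⟩ := WithBot.ne_bot_iff_exists.mp hd
        rw [← hd'] at hdim' ⊢
        have h2' : (d + 1 : ℕ∞) = ((n + 1 : ℕ) : ℕ∞) := by exact_mod_cast hdim'
        have : d = (n : ℕ∞) := by
          push_cast at h2'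
          exact (ENat.add_left_injective_of_ne_top ENat.one_ne_top) h2'
        rw [this]; rfl
      · simpa using hlen'
      · intro r hr
        obtain ⟨r₀, hr₀, rfl⟩ := List.mem_map.mp hr
        rw [← hmapmax]
        exact Ideal.mem_map_of_mem _ (hmem' r₀ hr₀)
      · refine IsRegular.of_isWeaklyRegular_of_mem_maximalIdeal (QuotSMulTop x N) ?_ ?_
        · intro r hr
          obtain ⟨r₀, hr₀, rfl⟩ := List.mem_map.mp hr
          rw [← hmapmax]
          exact Ideal.mem_map_of_mem _ (hmem' r₀ hr₀)
        · exact (isWeaklyRegular_map_algebraMap_iff (A ⧸ Ideal.span {x})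
            (QuotSMulTop x N) rs').mpr hreg'.toIsWeaklyRegular
    have hjac : x ∈ (⊥ : Ideal A).jacobson := by
      rw [IsLocalRing.jacobson_eq_maximalIdeal ⊥ bot_ne_top]
      exact hx
    have hfp : Module.FinitePresentation A N := Module.finitePresentation_of_finite A N
    exact (Module.free_quotSMulTop_iff_free A N hjac hxreg).mp hfree'

/-- **Maximal Cohen-Macaulay modules over regular local rings are free.**
If `A` is a regular local ring and the finite `A`-module `N` admits a regular sequence of
length `dim A` inside the maximal ideal, then `N` is free. -/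
theorem free_of_isRegular {A N : Type u} [CommRing A] [IsRegularLocalRing A]
    [AddCommGroup N] [Module A N] [Module.Finite A N] (rs : List A)
    (hmem : ∀ r ∈ rs, r ∈ maximalIdeal A) (hreg : IsRegular N rs)
    (hlen : ((rs.length : ℕ) : WithBot ℕ∞) = ringKrullDim A) : Module.Free A N :=
  free_of_isRegular_aux rs.length A N hlen.symm ⟨rs, rfl, hmem, hreg⟩

/-- Variant with a weakly regular sequence on a nontrivial module. -/
theorem free_of_isWeaklyRegular {A N : Type u} [CommRing A] [IsRegularLocalRing A]
    [AddCommGroup N] [Module A N] [Module.Finite A N] [Nontrivial N] (rs : List A)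
    (hmem : ∀ r ∈ rs, r ∈ maximalIdeal A) (hreg : IsWeaklyRegular N rs)
    (hlen : ((rs.length : ℕ) : WithBot ℕ∞) = ringKrullDim A) : Module.Free A N :=
  free_of_isRegular rs hmem (IsRegular.of_isWeaklyRegular_of_mem_maximalIdeal N hmem hreg) hlen

/-- A local Noetherian ring whose maximal ideal is generated by a regular sequence is a
regular local ring, of dimension the length of the sequence. -/
theorem isRegularLocalRing_of_isRegular_ofList_eq {A : Type*} [CommRing A] [IsLocalRing A]
    [IsNoetherianRing A] (rs : List A) (hreg : IsRegular A rs)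
    (hmax : Ideal.ofList rs = maximalIdeal A) :
    IsRegularLocalRing A ∧ ringKrullDim A = ((rs.length : ℕ) : WithBot ℕ∞) := by
  have hdim := ringKrullDim_add_length_eq_ringKrullDim_of_isRegular rs hreg
  have hfield : IsField (A ⧸ Ideal.ofList rs) := by
    rw [hmax]
    exact (Ideal.Quotient.maximal_ideal_iff_isField_quotient _).mp (maximalIdeal.isMaximal A)
  rw [ringKrullDim_eq_zero_of_isField hfield, zero_add] at hdim
  refine ⟨IsRegularLocalRing.of_spanFinrank_maximalIdeal_le _ ?_, hdim.symm⟩
  rw [← hdim, ← hmax, Ideal.ofList]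
  have h1 : (Ideal.span {r | r ∈ rs}).spanFinrank ≤ ({r | r ∈ rs} : Set A).ncard :=
    Submodule.spanFinrank_span_le_ncard_of_finite (List.finite_toSet rs)
  have h2 : ({r | r ∈ rs} : Set A).ncard ≤ rs.length := by
    classical
    have : ({r | r ∈ rs} : Set A) = (rs.toFinset : Set A) := by
      ext r; simp
    rw [this, Set.ncard_coe_finset]
    exact List.toFinset_card_le rs
  exact_mod_cast h1.trans h2

end Fermat.Agent.S57.MCMFree
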